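import Fermat.Agent.Raising.Lifting.Main
import Fermat.Agent.Raising.Modular.RaiseSupply

/-!
# Lifting from squarefree levels

The supply of levels exists, so modularity lifting from squarefree residual levels holds.
-/

namespace Fermat.Agent.Raising.Lifting

/-- **Modularity lifting at `3` and `5` from squarefree residual levels.** -/
theorem liftingSquarefree : Glue.LiftingSquarefree :=
  liftingSquarefree_of_supply fun p _ W _ C K _ _ _ _ hp35 hΔ hss hirr hinjK =>
    ⟨Modular.raiseSupply C (by omega) hΔ hss hirr hinjK,
      Modular.lastSupply_of_minLevel C K (by omega) hΔ hss hirr hinjK⟩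

end Fermat.Agent.Raising.Lifting
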