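import Fermat.Agent.Raising.AtResidualPrime.LastBuilderPoints
import Fermat.Agent.Raising.Coeff.BaseChange
import Fermat.Agent.Raising.Lifting
import Fermat.Agent.Raising.Supply
import Fermat.Agent.Raising.Tate.Flat
import Fermat.Agent.Raising.Tate.Multiplicative
import Fermat.Agent.Raising.TopClass

/-!
# The common setting of the raising cases

The Tate module over the coefficient ring as the lift to be reached, the raised primes of a
`RaiseSetup`, the residual hypotheses over them, and the eigenclass of a point of the top level.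
-/

noncomputable section

namespace Fermat.Agent.Raising

open IsLocalRing Polynomial Module Matrix Fermat.Agent.LevelLowering Fermat.Agent.Gal
  Fermat.Agent.TW

namespace Lifting

open WeierstrassCurve Fermat.Agent.LevelLowering.Semistable Fermat.Agent.Ihara Fermat.Agent.PT

local notation "Qbar" => AlgebraicClosure ℚ
local notation "GQ" => (AlgebraicClosure ℚ ≃ₐ[ℚ] AlgebraicClosure ℚ)

variable {p : ℕ} [hp : Fact p.Prime] (C : Coeff.CoeffRing p) {W : WeierstrassCurve ℤ}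
  [(W.map (Int.castRingHom ℚ)).IsElliptic]

local notation "Eℚ" => W.map (Int.castRingHom ℚ)

section Lift

variable (F : Tate.TateFrame (W.map (Int.castRingHom ℚ)) p)

/-- The Tate module has cyclotomic determinant. -/
theorem tateFrame_detIsCyclotomic (hΔ : W.Δ ≠ 0) (hirr : W.ModRepIsIrreducible p) :
    F.ρ.DetIsCyclotomic p := by
  classical
  exact F.detIsCyclotomic hΔ (Tate.exists_smul_notMem_zmultiples hirr)

/-- The lift has cyclotomic determinant. -/
theorem tateRep_detIsCyclotomic (hΔ : W.Δ ≠ 0) (hirr : W.ModRepIsIrreducible p) :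
    (Coeff.tateRep C F).DetIsCyclotomic p :=
  TW.detIsCyclotomic_baseChange _ (tateFrame_detIsCyclotomic F hΔ hirr)

/-- The characteristic polynomial of Frobenius of the lift at a good prime. -/
theorem charpoly_tateRep_frobenius (hΔ : W.Δ ≠ 0) (hirr : W.ModRepIsIrreducible p) {ℓ : ℕ}
    (hℓ : ℓ.Prime) (hℓp : ℓ ≠ p) (hgood : W.IsGoodPrimeFor ℓ) {A : ValuationSubring Qbar}
    (hA : A.LiesOverPrime ℓ) {σ : GQ} (hσ : A.IsFrobeniusAt σ ℓ) :
    LinearMap.charpoly ((Coeff.tateRep C F).ρ σ) =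
      X ^ 2 - Polynomial.C (curveSys C W ℓ) * X + Polynomial.C (ℓ : C.O) := by
  classical
  have h1 : F.ρ.trace σ = (W.apOfModel ℓ : ℤ_[p]) :=
    F.trace_frobenius hΔ (Tate.exists_smul_notMem_zmultiples hirr) hℓ hℓp hgood hA hσ
  have h2 : LinearMap.det ((Coeff.tateRep C F).ρ σ) = (ℓ : C.O) := by
    have h := Scalar.det_frobenius_eq (Coeff.tateRep C F)
      (basisTwo (Coeff.tateRep C F).finrank_eq) hp.out (tateRep_detIsCyclotomic C F hΔ hirr) hℓ hℓp
      hA hσ
    exact (LinearMap.det_toMatrix _ _).symm.trans h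
  have h3 : LinearMap.trace C.O _ ((Coeff.tateRep C F).ρ σ) = curveSys C W ℓ :=
    (Coeff.trace_tateRep C F σ).trans (by rw [h1, map_intCast]; rfl)
  rw [Gal.charpoly_fin_two' (Coeff.tateRep C F).finrank_eq, h2, h3]

omit [(W.map (Int.castRingHom ℚ)).IsElliptic] in
/-- The lift is unramified at good primes. -/
theorem tateRep_isUnramifiedAt {ℓ : ℕ} (hℓ : ℓ.Prime) (hℓp : ℓ ≠ p) (hgood : W.IsGoodPrimeFor ℓ) :
    (Coeff.tateRep C F).IsUnramifiedAt ℓ :=
  TW.isUnramifiedAt_baseChange _ (F.isUnramifiedAt_of_good hℓ hℓp hgood)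

/-- The lift is unipotent on inertia away from `p`. -/
theorem tateRep_isUnipotentOnInertiaAt (hΔ : W.Δ ≠ 0) (hss : W.IsSemistableModel)
    (hirr : W.ModRepIsIrreducible p) {q : ℕ} (hq : q.Prime) (hqp : q ≠ p) :
    (Coeff.tateRep C F).IsUnipotentOnInertiaAt q := by
  by_cases hbad : (q : ℤ) ∣ W.Δ
  · have h : F.ρ.IsUnipotentOnInertiaAt q := F.isUnipotentOnInertiaAt_of_multiplicative
      (tateFrame_detIsCyclotomic F hΔ hirr) hq hqp hΔ hbad (hss q hq hbad)
    exact TW.isUnipotentOnInertiaAt_baseChange C.instLocalHom h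
  · exact isUnipotentOnInertiaAt_of_unramified (tateRep_isUnramifiedAt C F hq hqp hbad)

omit [(W.map (Int.castRingHom ℚ)).IsElliptic] in
/-- The lift is flat at a good `p`. -/
theorem tateRep_isFlatAt (hgood : ¬ (p : ℤ) ∣ W.Δ) : (Coeff.tateRep C F).IsFlatAt p :=
  Coeff.isFlatAt_baseChange_of_finite _ (F.isFlatAt hgood)

/-- A raised prime at `q` with the trace of the curve. -/
def HasCurvePrime (q : ℕ) : Prop :=
  ∃ P : CurvePrime C W, P.q = q ∧
    (Coeff.tateRep C F).trace P.φ = P.ε * ((P.q : C.O) + 1)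

/-- The raised primes of a setup carry the signs of the curve. -/
def HasSigns {m : ℕ} (P : Fin m → CurvePrime C W) : Prop :=
  ∀ i, LinearMap.trace C.O _ ((Coeff.tateRep C F).ρ (P i).φ) = (P i).ε * (((P i).q : C.O) + 1)

/-- The lift is unramified outside `p`, the level and the raised primes. -/
theorem tateRep_unramified_outside (hΔ : W.Δ ≠ 0) {M t : ℕ} (h : RaiseSetup p W M t) {m : ℕ}
    (P : Fin m → CurvePrime C W) (hP : ∀ r, (∃ i, (P i).q = r) ↔ r ∈ raiseSet p W M) {ℓ : ℕ}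
    (hℓ : ℓ.Prime) (hℓn : ℓ ∉ insert p (ramSet P ((M * t).primeFactors.erase p) m)) :
    (Coeff.tateRep C F).IsUnramifiedAt ℓ := by
  simp only [Finset.mem_insert, not_or, ramSet, Finset.mem_union, Finset.mem_image,
    Finset.mem_filter, Finset.mem_univ, true_and, not_exists, not_and] at hℓn
  refine tateRep_isUnramifiedAt (W := W) C F hℓ hℓn.1 fun hbad => ?_
  by_cases hM : ℓ ∣ M
  · exact hℓn.2.1 (Finset.mem_erase.2 ⟨hℓn.1, Nat.mem_primeFactors.2
      ⟨hℓ, hM.mul_right t, mul_ne_zero h.minLevel.ne_zero h.aux.prime.ne_zero⟩⟩)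
  · obtain ⟨i, hi⟩ := (hP ℓ).2 ((mem_raiseSet hΔ h.minLevel.ne_zero).2 ⟨hℓ, hbad, hℓn.1, hM⟩)
    exact hℓn.2.2 i i.2 hi

end Lift

variable {C}

/-- **The raised primes of a setup.** -/
theorem exists_raisingFor (hΔ : W.Δ ≠ 0) {M t : ℕ} (h : RaiseSetup p W M t)
    (F : Tate.TateFrame (W.map (Int.castRingHom ℚ)) p)
    (hcp : ∀ q : ℕ, q.Prime → q ≠ p → (q : ℤ) ∣ W.Δ → TorsionUnramifiedAt W p q →
      HasCurvePrime (W := W) C F q) :
    ∃ (m : ℕ) (P : Fin m → CurvePrime C W), IsRaisingFor (M * t) P ∧ HasSigns (W := W) C F P ∧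
      (∀ r, (∃ i, (P i).q = r) ↔ r ∈ raiseSet p W M) ∧
      raisedLevel (M * t) P m = M * t * ∏ q ∈ raiseSet p W M, q := by
  classical
  have hM0 := h.minLevel.ne_zero
  let e := (raiseSet p W M).equivFin.symm
  have hq := fun i => (mem_raiseSet hΔ hM0).1 (e i).2
  choose P hPq hPt using fun i =>
    hcp _ (hq i).1 (hq i).2.2.1 (hq i).2.1 (h.unramified _ (hq i).1 (hq i).2.2.2 (hq i).2.2.1)
  refine ⟨_, P, ⟨fun i j hij => ?_, fun i hd => ?_, fun i => hPq i ▸ (hq i).2.1⟩, hPt,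
    fun r => ⟨?_, fun hr => ⟨e.symm ⟨r, hr⟩, by rw [hPq, Equiv.apply_symm_apply]⟩⟩, ?_⟩
  · exact e.injective (Subtype.ext (by simpa [hPq] using hij))
  · rw [hPq] at hd
    rcases (hq i).1.dvd_mul.1 hd with hd | hd
    · exact (hq i).2.2.2 hd
    · exact h.aux.good ((Nat.prime_dvd_prime_iff_eq (hq i).1 h.aux.prime).1 hd ▸ (hq i).2.1)
  · rintro ⟨i, rfl⟩
    exact hPq i ▸ (e i).2
  · rw [raisedLevel, Finset.filter_true_of_mem fun i _ => i.2]
    congr 1
    rw [← Finset.prod_coe_sort (raiseSet p W M)]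
    exact Fintype.prod_equiv e _ _ fun i => hPq i

/-- At a prime of the level other than `p` the torsion is ramified or the prime is auxiliary. -/
theorem RaiseSetup.aux_or {M t : ℕ} (h : RaiseSetup p W M t) {l : ℕ}
    (hl : l ∈ (M * t).primeFactors.erase p) :
    IsAuxPrime (Coeff.curveRbar C Eℚ) p l ∨ ¬ (Coeff.curveRbar C Eℚ).IsUnramifiedAt l := by
  obtain ⟨hlp, hl⟩ := Finset.mem_erase.1 hl
  obtain ⟨hlpr, hld, -⟩ := Nat.mem_primeFactors.1 hl
  rcases hlpr.dvd_mul.1 hld with hM | ht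
  · exact Or.inr fun hu => h.ramified l hlpr hM hlp ((curveRbar_unramified_iff C l).1 hu)
  · obtain rfl := (Nat.prime_dvd_prime_iff_eq hlpr h.aux.prime).1 ht
    exact Or.inl (isAuxPrime_curveRbar C hlpr hlp h.aux.good h.aux.trace)

section Bad

variable {N₀ : ℕ} [NeZero N₀] {m : ℕ} (P : Fin m → CurvePrime C W)

omit [NeZero N₀] in
/-- The primes of bad reduction are excluded. -/
theorem mem_raiseBad_of_bad (hΔ : W.Δ ≠ 0) {q : ℕ} (hq : q.Prime) (h : (q : ℤ) ∣ W.Δ) :
    q ∈ raiseBad N₀ P :=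
  LoweringAtP.HeckeCompat.mem_badSet_of_bad hΔ hq h

omit [NeZero N₀] in
/-- The prime `p` is excluded. -/
theorem p_mem_raiseBad : p ∈ raiseBad N₀ P := LoweringAtP.HeckeCompat.mem_badSet_self _ _ _

/-- Outside the bad set of a raising the curve has good reduction. -/
theorem good_of_notMem_raiseBad (hΔ : W.Δ ≠ 0) {q : ℕ} (hq : q.Prime) (h : q ∉ raiseBad N₀ P) :
    W.IsGoodPrimeFor q ∧ ¬ q ∣ raisedLevel N₀ P m ∧ q ≠ p :=
  LoweringAtP.HeckeCompat.good_of_not_mem_badSet hΔ hq h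

end Bad

/-- **The residual hypotheses of a raising step of the curve.** -/
theorem stepHyps (hp2 : p ≠ 2) (hΔ : W.Δ ≠ 0) (hss : W.IsSemistableModel)
    (hirr : W.ModRepIsIrreducible p) {M t : ℕ} (h : RaiseSetup p W M t) [NeZero (M * t)] {m : ℕ}
    (P : Fin m → CurvePrime C W) (hP : IsRaisingFor (M * t) P) {S₀ : Finset ℕ}
    (hS : raiseBad (M * t) P ⊆ S₀) :
    StepHyps P ((M * t).primeFactors.erase p) (curveSys C W) S₀ := by
  have hB := lowerBase C hp2 hΔ hss hirr (curveSys C W) S₀ (hS (p_mem_raiseBad P))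
    (fun ℓ hℓ hd => hS (mem_raiseBad_of_bad P hΔ hℓ hd)) fun ℓ _ _ => map_intCast (residue C.O) _
  exact {
    odd_p := hp2
    p_mem := natCast_mem C
    absIrr := hB.absIrr
    odd := hB.odd
    frob := hB.frob
    unramified := fun ℓ hℓ hℓS => by
      obtain ⟨hgood, -, hℓp⟩ := good_of_notMem_raiseBad P hΔ hℓ fun hm => hℓS (hS hm)
      exact (curveRbar_unramified_iff C ℓ).2 (torsionUnramifiedAt_of_good hℓ hℓp hgood)
    inj := hP.inj
    notMem := fun i hm =>
      hP.not_dvd i (Nat.dvd_of_mem_primeFactors (Finset.mem_of_mem_erase hm))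
    aux_or := fun _ hl _ _ => RaiseSetup.aux_or h hl }

omit [(W.map (Int.castRingHom ℚ)).IsElliptic] in
/-- **The eigenclass of a point of a level.** -/
theorem hasTopClass_of_point {K : Type} [Field K] [CharZero K] [Algebra C.O K]
    (hinjK : Function.Injective (algebraMap C.O K)) {N : ℕ} [NeZero N] (B : SupplyBase C W N)
    {R : Type} [CommRing R] [Algebra C.O R] (A : R →ₐ[C.O] Matrix (Fin B.d) (Fin B.d) C.O)
    (S : Finset ℕ) (x : ℕ → R) (hx : ∀ ℓ : ℕ, ℓ.Prime → ℓ ∉ S → A (x ℓ) = B.Tm ℓ)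
    (w : R →ₐ[C.O] C.O) (hw : ∀ z, A z = 0 → w z = 0)
    (ha : ∀ ℓ : ℕ, ℓ.Prime → ℓ ∉ S → w (x ℓ) = curveSys C W ℓ) : HasTopClass W N := by
  obtain ⟨y, hy0, hy⟩ := exists_eigenclass_of_point (K := K) hinjK
    (Scalar.goodPrimes (levelBad p N W)) B.v
    (fun b hb => (B.basis 0 (map_zero _)).unique hb (by simp)) B.Tm B.Tm_spec
    A.toRingHom (fun c => (A.commutes c).trans (Matrix.algebraMap_eq_diagonal c))
    S x (fun ℓ hℓ => hx ℓ.1 ℓ.1.2 hℓ) w hw W.apOfModel (fun ℓ hℓ => ha ℓ.1 ℓ.1.2 hℓ)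
  refine ⟨K, ‹_›, ‹_›, S ∪ levelBad p N W, y, hy0, fun ℓ _ hℓ hℓS => ?_⟩
  rw [Finset.mem_union, not_or] at hℓS
  exact hy ℓ hℓ hℓS.2 hℓS.1

end Lifting

end Fermat.Agent.Raising
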