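import Fermat.Agent.Raising.CurvePrimes
import Fermat.Agent.Raising.Lifting.Setup
import Fermat.Agent.Raising.RaiseMain

/-!
# Raising to the top level and the case of good reduction

The Tate module over the coefficient ring lies on the component of the curve at every raised prime,
hence, with the condition at `p`, is a point of the level `M t ∏ q`; at good reduction it is flat.
-/

noncomputable section

namespace Fermat.Agent.Raising.Lifting

open IsLocalRing Module Matrix WeierstrassCurve Fermat.Agent.LevelLowering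
  Fermat.Agent.LevelLowering.Semistable Fermat.Agent.Gal

variable {p : ℕ} [hp : Fact p.Prime] (C : Coeff.CoeffRing p) {W : WeierstrassCurve ℤ}
  [(W.map (Int.castRingHom ℚ)).IsElliptic]
  {K : Type} [Field K] [IsAlgClosed K] [CharZero K] [Algebra C.O K]

/-- **Raising to the top level**, from the levels and the condition at `p` on the Tate module. -/
theorem hasTopClass_of_supply (hp2 : p ≠ 2) (hΔ : W.Δ ≠ 0) (hss : W.IsSemistableModel)
    (hirr : W.ModRepIsIrreducible p) (hinjK : Function.Injective (algebraMap C.O K))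
    (hsup : RaiseSupply C W K) {M t N : ℕ} [NeZero N] (h : RaiseSetup p W M t)
    (hp' : ∀ F : Tate.TateFrame (W.map (Int.castRingHom ℚ)) p, AtPCond p M (Coeff.tateRep C F))
    (hN : N = M * t * ∏ q ∈ raiseSet p W M, q) : HasTopClass W N := by
  have : NeZero M := ⟨h.minLevel.ne_zero⟩
  have : NeZero t := ⟨h.aux.prime.ne_zero⟩
  have : NeZero (M * t) := ⟨mul_ne_zero h.minLevel.ne_zero h.aux.prime.ne_zero⟩
  obtain ⟨F⟩ := Tate.nonempty_tateFrame (E := W.map (Int.castRingHom ℚ)) (p := p)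
  obtain ⟨m, P, hP, hsign, hrange, hlevel⟩ :=
    exists_raisingFor hΔ h F (exists_curvePrime C hΔ hss hirr F)
  obtain ⟨B, hB, hlev⟩ := hsup M t h.minLevel h.aux m P hP
  have hsub := levelBad_subset_raiseBad (M * t) P
  set S₀ := raiseBad (M * t) P
  set Smin := (M * t).primeFactors.erase p
  have H := stepHyps (C := C) hp2 hΔ hss hirr h P hP (S₀ := S₀) subset_rfl
  have hMt : M * t ≠ 0 := NeZero.ne _
  -- outside the level and the raised primes
  have hout : ∀ {l : ℕ}, l.Prime → l ∉ allSet P Smin →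
      l ∉ insert p (ramSet P Smin m) := fun {l} _ hl h' =>
    hl (ramSet_subset_allSet P Smin m h')
  have hgoodOut : ∀ {l : ℕ}, l.Prime → l ∉ allSet P Smin → l ≠ p ∧ W.IsGoodPrimeFor l ∧
      ¬ l ∣ raisedLevel (M * t) P m := fun {l} hl hn => by
    simp only [mem_allSet, not_or, not_exists] at hn
    obtain ⟨hlp, hlS, hlP⟩ := hn
    have hlMt : ¬ l ∣ M * t := fun hd =>
      hlS (Finset.mem_erase.2 ⟨hlp, Nat.mem_primeFactors.2 ⟨hl, hd, hMt⟩⟩)
    refine ⟨hlp, fun hd => ?_, fun hd => ?_⟩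
    · obtain ⟨i, hi⟩ := (hrange l).2 ((mem_raiseSet hΔ h.minLevel.ne_zero).2
        ⟨hl, hd, hlp, fun hM => hlMt (hM.mul_right t)⟩)
      exact hlP i hi
    · rcases hl.dvd_mul.1 hd with hd | hd
      · exact hlMt hd
      · obtain ⟨i, -, hi⟩ := (Prime.dvd_finsetProd_iff hl.prime _).1 hd
        exact hlP i ((Nat.prime_dvd_prime_iff_eq hl (P i).prime).1 hi).symm
  obtain ⟨L, hLfin, hLle, hLloc⟩ := exists_localCondition C (W := W) hp2 M
  obtain ⟨R₀, _, _, A, x, w, hA, hx, hker⟩ := exists_top_point hinjK hp2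
    (lowerBase C hp2 hΔ hss hirr (curveSys C W) S₀ (p_mem_raiseBad P)
      (fun ℓ hℓ hd => mem_raiseBad_of_bad P hΔ hℓ hd) fun ℓ _ _ => map_intCast (residue C.O) _)
    (detCyc_coeffBasis C) (fun σ => Coeff.curveRbar_split C σ)
    (Coeff.curveRbar_facts C hΔ hp2 hss hirr).2 P hP.inj Smin H.notMem
    (fun l hl hlp hlne => (H.aux_or l hl hlp hlne).symm)
    (fun l hl hn => (curveRbar_unramified_iff C l).2
      (torsionUnramifiedAt_of_good hl (hgoodOut hl hn).1 (hgoodOut hl hn).2.1))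
    (B 0).d_pos (fun j => (B j).Tm) (fun j => (B j).L₀.widen (hsub j))
    (fun j ℓ hℓ hℓS => (B j).base_x ℓ hℓ fun hm => hℓS (hsub j hm))
    (fun j hj a l hl hn => hB.unramified j hj a l hl
      (fun hd => (hgoodOut hl hn).2.2 (hd.trans (raisedLevel_dvd (M * t) P j))) (hgoodOut hl hn).1)
    (curveSys C W) (Coeff.tateRep C F) (fun ℓ _ _ => by rw [sub_self]; exact Ideal.zero_mem _)
    (fun ℓ hℓ hℓS A hA σ hσ =>
      charpoly_tateRep_frobenius C F hΔ hirr hℓ (good_of_notMem_raiseBad P hΔ hℓ hℓS).2.2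
        (good_of_notMem_raiseBad P hΔ hℓ hℓS).1 hA hσ)
    (fun l hl hn => tateRep_unramified_outside C F hΔ h P hrange hl (hout hl hn))
    (fun l _ hl hlp => tateRep_isUnipotentOnInertiaAt C F hΔ hss hirr hl hlp)
    (fun i => ⟨tateRep_isUnipotentOnInertiaAt C F hΔ hss hirr (P i).prime (P i).ne_p, hsign i⟩)
    M (hp' F) L hLfin hLle hLloc
    (fun D n qv hinj hq hroots => by
      obtain ⟨lv, hlv, R, -, hR⟩ := hlev D n qv ⟨hinj, fun i => ⟨(hq i).1,
        fun hm => (hq i).2.1 (Finset.mem_union_left _ hm), (hq i).2.2⟩, hroots⟩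
      exact ⟨lv, hlv, R, hR⟩)
  obtain rfl : N = raisedLevel (M * t) P m := hN.trans hlevel.symm
  exact hasTopClass_of_point hinjK (B m)
    ({ A with commutes' := fun c => (hA c).trans (Matrix.algebraMap_eq_diagonal c).symm } :
      R₀ →ₐ[C.O] Matrix (Fin (B m).d) (Fin (B m).d) C.O)
    S₀ x (fun ℓ hℓ hℓS => (hx ℓ hℓ hℓS).1) w hker fun ℓ hℓ hℓS => (hx ℓ hℓ hℓS).2

/-- **Raising at good reduction**, from the levels. -/
theorem raiseGood_of_supply (hp2 : p ≠ 2) (hΔ : W.Δ ≠ 0) (hss : W.IsSemistableModel)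
    (hirr : W.ModRepIsIrreducible p) (hinjK : Function.Injective (algebraMap C.O K))
    (hsup : RaiseSupply C W K) : RaiseGood p W := fun _ _ _ _ h hgood hpM hN =>
  hasTopClass_of_supply C hp2 hΔ hss hirr hinjK hsup h
    (fun F => Or.inl ⟨hpM, tateRep_isFlatAt C F hgood⟩) hN

end Fermat.Agent.Raising.Lifting
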