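import Fermat.Agent.Raising.AtResidualPrime.CurveAtP
import Fermat.Agent.Raising.AtResidualPrime.LastBuilder
import Fermat.Agent.Raising.CurvePrimes
import Fermat.Agent.Raising.LocalData.Main

/-!
# Raising at `p` last

For a curve multiplicative at `p` with `p` outside the minimal level, the Tate module is a point of
the level raised at all the bad primes outside the minimal level and at `p`: the levels without `p`
are flat, its unit root at `p` is the sign of the curve.
-/

noncomputable section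

namespace Fermat.Agent.Raising

namespace Lifting

open IsLocalRing Module WeierstrassCurve Fermat.Agent.LevelLowering
  Fermat.Agent.LevelLowering.Semistable Fermat.Agent.Ihara Fermat.Agent.Gal Fermat.Agent.PT
  Fermat.Agent.TW

local notation "Qbar" => AlgebraicClosure ℚ
local notation "GQ" => (AlgebraicClosure ℚ ≃ₐ[ℚ] AlgebraicClosure ℚ)

variable {p : ℕ} [hp : Fact p.Prime] {W : WeierstrassCurve ℤ}

section Lift

variable (C : Coeff.CoeffRing p) [(W.map (Int.castRingHom ℚ)).IsElliptic]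
  (F : Tate.TateFrame (W.map (Int.castRingHom ℚ)) p)

/-- **The lift of the last step**: the Tate module, with the sign of the curve as unit root. -/
theorem exists_lastLift (hp2 : p ≠ 2) (hΔ : W.Δ ≠ 0) (hbad : (p : ℤ) ∣ W.Δ)
    (hss : W.IsSemistableModel) (hirr : W.ModRepIsIrreducible p) {M t : ℕ} [NeZero (M * t)]
    (h : RaiseSetup p W M t) {m : ℕ} (P : Fin m → CurvePrime C W)
    (hrange : ∀ r, (∃ i, (P i).q = r) ↔ r ∈ raiseSet p W M) (hsigns : HasSigns (W := W) C F P)
    {Φ : GQ} (hΦ : (padicPlace ((pP p : Nat.Primes) : ℕ)).IsFrobeniusAt Φ p) :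
    ∃ ε : C.O, ε * ε = 1 ∧
      LastLift P ((M * t).primeFactors.erase p) (curveSys C W) (raiseBad (M * t) P) (curveSys C W)
        (Coeff.tateRep C F) (padicPlace ((pP p : Nat.Primes) : ℕ)) Φ ε := by
  have hdetF := tateFrame_detIsCyclotomic F hΔ hirr
  obtain ⟨ε, hε, hroot, -⟩ :=
    AtResidualPrime.exists_sign_curve C F (coeffBasis C (W.map (Int.castRingHom ℚ))) hp2 hΔ hbad
      hss hdetF
  refine ⟨ε, by rcases hε with rfl | rfl <;> simp, {
    congr := fun ℓ _ _ => ?_
    frob := fun ℓ hℓ hℓS A hA σ hσ => ?_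
    unramified := fun l hl hln => tateRep_unramified_outside C F hΔ h P hrange hl hln
    unipotent := fun l _ hl hlp => tateRep_isUnipotentOnInertiaAt C F hΔ hss hirr hl hlp
    steinberg := hsigns
    ord := fun A hA => (hroot A hA).imp fun _ h => h.1
    unitRoot := ?_ }⟩
  · rw [sub_self]
    exact zero_mem _
  · obtain ⟨hgood, -, hℓp⟩ := good_of_notMem_raiseBad P hΔ hℓ hℓS
    exact charpoly_tateRep_frobenius C F hΔ hirr hℓ hℓp hgood hA hσ
  · obtain ⟨bL, hbL, hfrob⟩ := hroot _ padicPlace_liesOverPrime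
    exact ⟨bL, hbL, hfrob Φ hΦ⟩

end Lift

/-- **Raising with `p` as the last step**, from the supply of levels. -/
theorem raiseLast_of_supply [(W.map (Int.castRingHom ℚ)).IsElliptic] (C : Coeff.CoeffRing p)
    {K : Type} [Field K] [IsAlgClosed K] [CharZero K] [Algebra C.O K] (hp2 : p ≠ 2) (hΔ : W.Δ ≠ 0)
    (hss : W.IsSemistableModel) (hirr : W.ModRepIsIrreducible p)
    (hinjK : Function.Injective (algebraMap C.O K)) (hsup : LastSupply C W K) :
    RaiseLast p W := by
  intro M t N _ h hbad hpM hN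
  have : NeZero (M * t) := ⟨mul_ne_zero h.minLevel.ne_zero h.aux.prime.ne_zero⟩
  have : NeZero p := ⟨hp.out.ne_zero⟩
  obtain ⟨F⟩ := Tate.nonempty_tateFrame (E := W.map (Int.castRingHom ℚ)) (p := p)
  obtain ⟨m, P, hP, hsigns, hrange, hlast⟩ :=
    exists_raisingFor hΔ h F (exists_curvePrime C hΔ hss hirr F)
  have hN' : N = raisedLevel (M * t) P m * p := by rw [hN, hlast]
  subst hN'
  obtain ⟨B, Bp, hB, hlev⟩ := hsup M t h.minLevel h.aux hpM hbad m P hP
  obtain ⟨Φ, hΦ⟩ := Gal.exists_isFrobeniusAt (A := padicPlace ((pP p : Nat.Primes) : ℕ)) hp.out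
    padicPlace_liesOverPrime
  obtain ⟨ε, hε, hlift⟩ := exists_lastLift C F hp2 hΔ hbad hss hirr h P hrange hsigns hΦ
  have hdetF := tateFrame_detIsCyclotomic F hΔ hirr
  obtain ⟨Q, Q', hQ⟩ := AtResidualPrime.exists_ordFrame_curveRbar C F
    (coeffBasis C (W.map (Int.castRingHom ℚ))) hp2 hΔ hbad hss hdetF
  obtain ⟨S, T, _, _, A, x, w, hw, hx⟩ := exists_lastPoint (K := K)
    (d := fun j => (B j).d) (Tm := fun j => (B j).Tm) (dp := Bp.d) (Tp := Bp.Tm)
    (stepHyps hp2 hΔ hss hirr h P hP subset_rfl) (detCyc_coeffBasis C) (Coeff.curveRbar_split C)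
    (Coeff.curveRbar_facts C hΔ hp2 hss hirr).2 hQ hinjK
    (fun i => (exists_localKind (P i) hp2).some) hB.rank_const (B 0).d_pos hΦ hε hlift
    fun D n qv hinj hq hroots => by
      obtain ⟨lv, hlv, R, -, hT⟩ := hlev D n qv ⟨hinj, hq, hroots⟩
      exact ⟨lv, hlv, R, hT⟩
  exact hasTopClass_of_point (K := K) hinjK Bp A S x (fun ℓ hℓ hℓS => (hx ℓ hℓ hℓS).1) w hw
    fun ℓ hℓ hℓS => (hx ℓ hℓ hℓS).2

end Lifting

end Fermat.Agent.Raising

end
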