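import Fermat.Agent.LevelLowering.Semistable.Lowering
import Fermat.Agent.Raising.LevelFacts
import Fermat.Agent.Raising.Lifting.Good
import Fermat.Agent.Raising.Lifting.Last

/-!
# Lifting from squarefree levels, from the supply of levels

Minimal levels have no scalar prime, residual modularity gives the ramification outside the level,
and the three raising cases come from the supply of levels: the Tate module is flat at a good `p`
and strictly ordinary at a multiplicative one.
-/

noncomputable section

namespace Fermat.Agent.Raising.Lifting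

open WeierstrassCurve Fermat.Agent.LevelLowering.Semistable

variable {p : ℕ} [hp : Fact p.Prime] (C : Coeff.CoeffRing p) {W : WeierstrassCurve ℤ}
  [(W.map (Int.castRingHom ℚ)).IsElliptic]
  {K : Type} [Field K] [IsAlgClosed K] [CharZero K] [Algebra C.O K]

/-- **Raising when `p` is in the minimal level**, from the levels. -/
theorem raiseStrict_of_supply (hp2 : p ≠ 2) (hΔ : W.Δ ≠ 0) (hss : W.IsSemistableModel)
    (hirr : W.ModRepIsIrreducible p) (hinjK : Function.Injective (algebraMap C.O K))
    (hsup : RaiseSupply C W K) : RaiseStrict p W := fun _ _ _ _ h hbad hpM _ hN =>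
  hasTopClass_of_supply C hp2 hΔ hss hirr hinjK hsup h
    (fun F => Or.inr ⟨hpM, AtResidualPrime.isStrictOrdinaryAt_tateRep C F hp2 hΔ hbad hss
      (tateFrame_detIsCyclotomic F hΔ hirr)⟩) hN

omit hp C in
/-- **`LiftingSquarefree`** from the supply of levels. -/
theorem liftingSquarefree_of_supply
    (hsup : ∀ (p : ℕ) [Fact p.Prime] (W : WeierstrassCurve ℤ)
      [(W.map (Int.castRingHom ℚ)).IsElliptic] (C : Coeff.CoeffRing p) (K : Type) [Field K]
      [IsAlgClosed K] [CharZero K] [Algebra C.O K], p = 3 ∨ p = 5 → W.Δ ≠ 0 →
      W.IsSemistableModel → W.ModRepIsIrreducible p → Function.Injective (algebraMap C.O K) →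
      RaiseSupply C W K ∧ LastSupply C W K) :
    Glue.LiftingSquarefree :=
  liftingSquarefree_of fun p _ W hp35 hΔ hss hirr => by
    have hp2 : p ≠ 2 := by omega
    have := Frey.isElliptic_mapRat hΔ
    obtain ⟨C⟩ := Coeff.exists_coeffRing p
    let K := AlgebraicClosure (FractionRing C.O)
    have hinjK : Function.Injective (algebraMap C.O K) :=
      LevelLowering.injective_algebraMap_fracClosure C.O
    obtain ⟨h1, h2⟩ := hsup p W C K hp35 hΔ hss hirr hinjK
    exact ⟨noScalarMinimal hp2 hΔ hss hirr, LevelFacts.unramifiedOutsideLevel hp2 hΔ hirr,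
      raiseGood_of_supply C hp2 hΔ hss hirr hinjK h1,
      raiseStrict_of_supply C hp2 hΔ hss hirr hinjK h1,
      raiseLast_of_supply C hp2 hΔ hss hirr hinjK h2⟩

end Fermat.Agent.Raising.Lifting
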